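import Mathlib.Analysis.Fourier.PoissonSummation
import Mathlib.MeasureTheory.Group.FundamentalDomain
import Mathlib.Topology.ContinuousMap.StoneWeierstrass
import Mathlib.Topology.Algebra.Group.Quotient

/-!
# LT / T3 (and T1) — abstract Poisson summation (helper534)

Pure Mathlib.  `G` a locally compact abelian topological group with a Borel measure `μ`,
`Γ` a countable subgroup with compact quotient `G ⧸ Γ` and a fundamental domain `D` of finite
measure, `e : Ξ → G → ℂ` a system of unitary characters of `G`, trivial on `Γ`, parametrised by an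
additive group `Ξ`, which separates the points of `G ⧸ Γ`.  Then for `φ : C(G, ℂ)` integrable,
locally normally summable over `Γ`, with summable Fourier coefficients
`c ξ = ∫ φ x * e (-ξ) x ∂μ`:

  `μ(D) * ∑' γ : Γ, φ (x + γ) = ∑' ξ, c ξ * e ξ x`.

Reference: Tate's thesis, Lemma 4.2.4 / Theorem 4.2.1; proof = Stone–Weierstrass on `G ⧸ Γ`
(no Pontryagin duality is used).
-/

set_option autoImplicit false
set_option linter.style.haveILetI false
set_option linter.unusedSectionVars false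

noncomputable section

namespace Fermat.Agent.LT.T3.H534

open MeasureTheory Filter Topology TopologicalSpace Set
open scoped Pointwise

variable {G : Type*} [AddCommGroup G] [TopologicalSpace G] [IsTopologicalAddGroup G]

/-- A system of unitary characters of `G`, trivial on `Γ`, parametrised by an additive group `Ξ`,
separating the points of `G ⧸ Γ`, with `ξ ↦ e ξ` injective. -/
structure CharSys534 (Γ : AddSubgroup G) (Ξ : Type*) [AddCommGroup Ξ] where
  /-- the characters -/
  e : Ξ → G → ℂ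
  cont : ∀ ξ, Continuous (e ξ)
  norm_one : ∀ ξ x, ‖e ξ x‖ = 1
  map_add : ∀ ξ x y, e ξ (x + y) = e ξ x * e ξ y
  add_map : ∀ ξ η x, e (ξ + η) x = e ξ x * e η x
  triv : ∀ ξ, ∀ γ ∈ Γ, e ξ γ = 1
  sep : ∀ x, x ∉ Γ → ∃ ξ, e ξ x ≠ 1
  inj : ∀ ξ, (∀ x, e ξ x = 1) → ξ = 0

namespace CharSys534

variable {Γ : AddSubgroup G} {Ξ : Type*} [AddCommGroup Ξ] (S : CharSys534 Γ Ξ)

lemma ne_zero534 (ξ : Ξ) (x : G) : S.e ξ x ≠ 0 := by
  intro h
  have := S.norm_one ξ x
  rw [h, norm_zero] at this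
  exact zero_ne_one this

lemma map_zero534 (ξ : Ξ) : S.e ξ 0 = 1 := by
  have h := S.map_add ξ 0 0
  rw [add_zero] at h
  have h0 := S.ne_zero534 ξ 0
  exact (mul_left_cancel₀ h0 (by rw [mul_one]; exact h)).symm

lemma zero_map534 (x : G) : S.e 0 x = 1 := by
  have h := S.add_map 0 0 x
  rw [add_zero] at h
  have h0 := S.ne_zero534 0 x
  exact (mul_left_cancel₀ h0 (by rw [mul_one]; exact h)).symm

lemma neg_map534 (ξ : Ξ) (x : G) : S.e (-ξ) x = (S.e ξ x)⁻¹ := by
  have h := S.add_map (-ξ) ξ x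
  rw [neg_add_cancel, S.zero_map534] at h
  exact eq_inv_of_mul_eq_one_left h.symm

lemma neg_map_conj534 (ξ : Ξ) (x : G) : S.e (-ξ) x = (starRingEnd ℂ) (S.e ξ x) := by
  rw [S.neg_map534, Complex.inv_def, Complex.normSq_eq_norm_sq, S.norm_one]
  simp

lemma periodic534 (ξ : Ξ) (x : G) {γ : G} (hγ : γ ∈ Γ) : S.e ξ (x + γ) = S.e ξ x := by
  rw [S.map_add, S.triv ξ γ hγ, mul_one]

lemma rel534 (ξ : Ξ) (a b : G) (h : QuotientAddGroup.leftRel Γ a b) : S.e ξ a = S.e ξ b := by
  rw [QuotientAddGroup.leftRel_apply] at h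
  have := S.periodic534 ξ a h
  rw [← this]
  congr 1
  abel

/-- The character `e ξ` as a continuous function on `G ⧸ Γ`. -/
def ebar534 (ξ : Ξ) : C(G ⧸ Γ, ℂ) where
  toFun := Quotient.lift (S.e ξ) (fun a b h => S.rel534 ξ a b h)
  continuous_toFun := (S.cont ξ).quotient_lift _

@[simp] lemma ebar_mk534 (ξ : Ξ) (x : G) : S.ebar534 ξ (x : G ⧸ Γ) = S.e ξ x := rfl


/-! ### Stone–Weierstrass: the span of the characters is dense in `C(G ⧸ Γ, ℂ)` -/

/-- The star subalgebra of `C(G ⧸ Γ, ℂ)` generated by the characters. -/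
def charSubalgebra534 : StarSubalgebra ℂ C(G ⧸ Γ, ℂ) where
  toSubalgebra := Algebra.adjoin ℂ (range S.ebar534)
  star_mem' := by
    change Algebra.adjoin ℂ (range S.ebar534) ≤ star (Algebra.adjoin ℂ (range S.ebar534))
    refine Algebra.adjoin_le ?_
    rintro - ⟨ξ, rfl⟩
    refine Algebra.subset_adjoin ⟨-ξ, ?_⟩
    ext1 z
    induction z using QuotientAddGroup.induction_on with
    | H x =>
      simp only [ContinuousMap.star_apply, ebar_mk534]
      rw [S.neg_map_conj534]
      simp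

theorem charSubalgebra_coe534 :
    Subalgebra.toSubmodule S.charSubalgebra534.toSubalgebra
      = Submodule.span ℂ (range S.ebar534) := by
  apply Algebra.adjoin_eq_span_of_subset
  refine Subset.trans ?_ Submodule.subset_span
  intro x hx
  refine Submonoid.closure_induction (fun _ => id) ⟨0, ?_⟩ ?_ hx
  · ext1 z
    induction z using QuotientAddGroup.induction_on with
    | H x => simp [S.zero_map534]
  · rintro _ _ _ _ ⟨m, rfl⟩ ⟨n, rfl⟩
    refine ⟨m + n, ?_⟩
    ext1 z
    induction z using QuotientAddGroup.induction_on with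
    | H x => simp [S.add_map]

theorem charSubalgebra_separatesPoints534 : S.charSubalgebra534.SeparatesPoints := by
  intro x y hxy
  induction x using QuotientAddGroup.induction_on with
  | H a =>
  induction y using QuotientAddGroup.induction_on with
  | H b =>
  have hab : b - a ∉ Γ := by
    intro h
    apply hxy
    rw [QuotientAddGroup.eq]
    have : -a + b = b - a := by abel
    rw [this]; exact h
  obtain ⟨ξ, hξ⟩ := S.sep _ hab
  refine ⟨_, ⟨S.ebar534 ξ, Algebra.subset_adjoin ⟨ξ, rfl⟩, rfl⟩, ?_⟩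
  simp only [ebar_mk534]
  intro h
  apply hξ
  have h1 : S.e ξ b = S.e ξ (b - a) * S.e ξ a := by
    rw [← S.map_add]; congr 1; abel
  rw [← h] at h1
  have h0 := S.ne_zero534 ξ a
  have : S.e ξ (b - a) * S.e ξ a = 1 * S.e ξ a := by rw [one_mul]; exact h1.symm
  exact mul_right_cancel₀ h0 this

variable [CompactSpace (G ⧸ Γ)]

theorem span_ebar_closure_eq_top534 :
    (Submodule.span ℂ (range S.ebar534)).topologicalClosure = ⊤ := by
  rw [← S.charSubalgebra_coe534]
  exact congr_arg (Subalgebra.toSubmodule <| StarSubalgebra.toSubalgebra ·)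
    (ContinuousMap.starSubalgebra_topologicalClosure_eq_top_of_separatesPoints
      S.charSubalgebra534 S.charSubalgebra_separatesPoints534)


end CharSys534

/-! ### Integrals over a fundamental domain -/

section FD

variable [MeasurableSpace G] [BorelSpace G] {Γ : AddSubgroup G} [Countable Γ]
  {μ : Measure G} [μ.IsAddLeftInvariant] {D : Set G}

/-- The integral over a fundamental domain of a `Γ`-periodic function is invariant under all
translations of `G`. -/
theorem setIntegral_add_left534 (hD : IsAddFundamentalDomain Γ D μ) {f : G → ℂ}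
    (hf : ∀ (γ : Γ) (x : G), f (γ +ᵥ x) = f x) (a : G) :
    ∫ x in D, f (a + x) ∂μ = ∫ x in D, f x ∂μ := by
  have h1 : ∫ y in (a +ᵥ D), f y ∂μ = ∫ x in D, f (a +ᵥ x) ∂μ :=
    (measurePreserving_vadd a μ).setIntegral_image_emb (measurableEmbedding_const_vadd a) f D
  have h2 : ∫ y in (a +ᵥ D), f y ∂μ = ∫ y in D, f y ∂μ :=
    (hD.vadd_of_comm a).setIntegral_eq hD hf
  rw [← h2, h1]
  rfl

/-- Unfolding: the integral over `G` of an integrable function is the integral over the
fundamental domain of its periodisation. -/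
theorem integral_eq_setIntegral_tsum534 (hD : IsAddFundamentalDomain Γ D μ) {f : G → ℂ}
    (hf : Integrable f μ) :
    ∫ x, f x ∂μ = ∫ x in D, ∑' γ : Γ, f (γ +ᵥ x) ∂μ := by
  rw [hD.integral_eq_tsum'' f hf]
  symm
  apply integral_tsum
  · intro γ
    exact (hf.aestronglyMeasurable.comp_measurePreserving
      (measurePreserving_vadd γ μ)).restrict
  · have := hD.lintegral_eq_tsum'' (fun x => ‖f x‖ₑ)
    rw [← this]
    exact hf.2.ne

end FD

namespace CharSys534

variable {Γ : AddSubgroup G} {Ξ : Type*} [AddCommGroup Ξ] (S : CharSys534 Γ Ξ)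
variable [MeasurableSpace G] [BorelSpace G] [Countable Γ]
  {μ : Measure G} [μ.IsAddLeftInvariant] {D : Set G}

lemma periodic_vadd534 (ξ : Ξ) (γ : Γ) (x : G) : S.e ξ (γ +ᵥ x) = S.e ξ x := by
  change S.e ξ ((γ : G) + x) = S.e ξ x
  rw [add_comm]
  exact S.periodic534 ξ x γ.2

/-- Orthogonality: a nontrivial character integrates to `0` over the fundamental domain. -/
theorem setIntegral_e_eq_zero534 (hD : IsAddFundamentalDomain Γ D μ) {ξ : Ξ} (hξ : ξ ≠ 0) :
    ∫ x in D, S.e ξ x ∂μ = 0 := by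
  have hex : ∃ a, S.e ξ a ≠ 1 := by
    by_contra hcon
    simp only [not_exists, not_not] at hcon
    exact hξ (S.inj ξ hcon)
  obtain ⟨a, ha⟩ := hex
  have h1 := setIntegral_add_left534 hD (f := S.e ξ) (S.periodic_vadd534 ξ) a
  have h2 : ∫ x in D, S.e ξ (a + x) ∂μ = S.e ξ a * ∫ x in D, S.e ξ x ∂μ := by
    rw [← integral_const_mul]
    congr 1
    funext x
    exact S.map_add ξ a x
  rw [h2] at h1
  have h3 : (S.e ξ a - 1) * ∫ x in D, S.e ξ x ∂μ = 0 := by
    rw [sub_mul, one_mul, h1, sub_self]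
  rcases mul_eq_zero.1 h3 with h | h
  · exact absurd (sub_eq_zero.1 h) ha
  · exact h

theorem setIntegral_e_zero534 : ∫ x in D, S.e 0 x ∂μ = ((μ D).toReal : ℂ) := by
  simp only [S.zero_map534]
  rw [setIntegral_const]
  simp [Measure.real]


/-! ### Uniqueness: a continuous function on `G ⧸ Γ` with vanishing coefficients is zero -/

omit [IsTopologicalAddGroup G] [BorelSpace G] [Countable Γ] [μ.IsAddLeftInvariant] in
lemma mk_vadd534 (γ : Γ) (x : G) : ((γ +ᵥ x : G) : G ⧸ Γ) = (x : G ⧸ Γ) := by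
  rw [QuotientAddGroup.eq]
  change -((γ : G) + x) + x ∈ Γ
  have : -((γ : G) + x) + x = -(γ : G) := by abel
  rw [this]
  exact Γ.neg_mem γ.2

omit [IsTopologicalAddGroup G] [Countable Γ] [μ.IsAddLeftInvariant] in
lemma integrableOn_pull534 [CompactSpace (G ⧸ Γ)] (hDfin : μ D ≠ ⊤) (f : C(G ⧸ Γ, ℂ)) :
    IntegrableOn (fun x : G => f (x : G ⧸ Γ)) D μ := by
  refine IntegrableOn.of_bound hDfin.lt_top ?_ ‖f‖
    (Eventually.of_forall fun x => f.norm_coe_le_norm _)
  exact (f.continuous.comp continuous_quotient_mk').aestronglyMeasurable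

theorem eq_zero_of_coeff534 [CompactSpace (G ⧸ Γ)] [μ.IsOpenPosMeasure]
    (hD : IsAddFundamentalDomain Γ D μ) (hDfin : μ D ≠ ⊤) (h : C(G ⧸ Γ, ℂ))
    (hcoef : ∀ ξ, ∫ x in D, h (x : G ⧸ Γ) * S.e ξ x ∂μ = 0) : h = 0 := by
  set L : C(G ⧸ Γ, ℂ) → ℂ := fun f => ∫ x in D, h (x : G ⧸ Γ) * f (x : G ⧸ Γ) ∂μ with hL
  have hint : ∀ f : C(G ⧸ Γ, ℂ),
      IntegrableOn (fun x : G => h (x : G ⧸ Γ) * f (x : G ⧸ Γ)) D μ :=
    fun f => integrableOn_pull534 hDfin (h * f)
  have hadd : ∀ f g, L (f + g) = L f + L g := by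
    intro f g
    simp only [hL, ContinuousMap.add_apply, mul_add]
    exact integral_add (hint f) (hint g)
  have hsmul : ∀ (c : ℂ) f, L (c • f) = c * L f := by
    intro c f
    simp only [hL, ContinuousMap.smul_apply, smul_eq_mul]
    rw [← integral_const_mul]
    congr 1; funext x; ring
  have hspan : ∀ f ∈ Submodule.span ℂ (range S.ebar534), L f = 0 := by
    intro f hf
    induction hf using Submodule.span_induction with
    | mem f hf => obtain ⟨ξ, rfl⟩ := hf; exact hcoef ξ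
    | zero => simp [hL]
    | add f g _ _ hf hg => rw [hadd, hf, hg, add_zero]
    | smul c f _ hf => rw [hsmul, hf, mul_zero]
  have hbound : ∀ f g, ‖L f - L g‖ ≤ ‖h‖ * (μ D).toReal * ‖f - g‖ := by
    intro f g
    have h1 : L f - L g = ∫ x in D, h (x : G ⧸ Γ) * (f - g) (x : G ⧸ Γ) ∂μ := by
      simp only [hL, ContinuousMap.sub_apply, mul_sub]
      exact (integral_sub (hint f) (hint g)).symm
    rw [h1]
    have h2 := norm_setIntegral_le_of_norm_le_const (μ := μ) (s := D)
      (f := fun x : G => h (x : G ⧸ Γ) * (f - g) (x : G ⧸ Γ)) (C := ‖h‖ * ‖f - g‖)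
      hDfin.lt_top (by
        intro x _
        rw [norm_mul]
        exact mul_le_mul (h.norm_coe_le_norm _) ((f - g).norm_coe_le_norm _) (norm_nonneg _)
          (norm_nonneg _))
    refine h2.trans (le_of_eq ?_)
    simp only [Measure.real]
    ring
  have hall : ∀ f, L f = 0 := by
    intro f
    have hf : f ∈ (Submodule.span ℂ (range S.ebar534)).topologicalClosure := by
      rw [S.span_ebar_closure_eq_top534]; trivial
    by_contra hne
    have hpos : 0 < ‖L f‖ := norm_pos_iff.2 hne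
    set c : ℝ := ‖h‖ * (μ D).toReal with hc
    have hc0 : 0 ≤ c := mul_nonneg (norm_nonneg _) ENNReal.toReal_nonneg
    have hε : 0 < ‖L f‖ / (c + 1) := div_pos hpos (by linarith)
    have hf' : f ∈ closure ((Submodule.span ℂ (range S.ebar534) : Set C(G ⧸ Γ, ℂ))) := hf
    obtain ⟨g, hg, hdist⟩ := Metric.mem_closure_iff.1 hf' _ hε
    have h1 := hbound f g
    rw [hspan g hg, sub_zero] at h1
    rw [dist_eq_norm] at hdist
    have h2 : c * ‖f - g‖ ≤ c * (‖L f‖ / (c + 1)) := mul_le_mul_of_nonneg_left hdist.le hc0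
    have h3 : c * (‖L f‖ / (c + 1)) < (c + 1) * (‖L f‖ / (c + 1)) :=
      mul_lt_mul_of_pos_right (by linarith) hε
    have h4 : (c + 1) * (‖L f‖ / (c + 1)) = ‖L f‖ := by
      field_simp
    linarith
  -- apply to `star h`
  have hstar := hall (star h)
  have h5 : ∫ x in D, ‖h (x : G ⧸ Γ)‖ ^ 2 ∂μ = 0 := by
    have h6 : ∫ x in D, ((‖h (x : G ⧸ Γ)‖ ^ 2 : ℝ) : ℂ) ∂μ = 0 := by
      rw [← hstar]
      simp only [hL]
      congr 1
      funext x
      rw [ContinuousMap.star_apply]
      simp only [Complex.star_def, Complex.mul_conj, Complex.normSq_eq_norm_sq]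
    rw [integral_complex_ofReal] at h6
    exact_mod_cast h6
  have hcontn : Continuous fun x : G => ‖h (x : G ⧸ Γ)‖ ^ 2 :=
    ((h.continuous.comp continuous_quotient_mk').norm).pow 2
  have hint2 : IntegrableOn (fun x : G => ‖h (x : G ⧸ Γ)‖ ^ 2) D μ := by
    refine IntegrableOn.of_bound hDfin.lt_top hcontn.aestronglyMeasurable (‖h‖ ^ 2)
      (Eventually.of_forall fun x => ?_)
    rw [Real.norm_eq_abs, abs_of_nonneg (by positivity)]
    exact pow_le_pow_left₀ (norm_nonneg _) (h.norm_coe_le_norm _) 2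
  have h7 := (setIntegral_eq_zero_iff_of_nonneg_ae
    (Eventually.of_forall fun x => by positivity) hint2).1 h5
  set U : Set G := {x | h (x : G ⧸ Γ) ≠ 0} with hU
  have hUo : IsOpen U := by
    have : Continuous fun x : G => h (x : G ⧸ Γ) := h.continuous.comp continuous_quotient_mk'
    exact isOpen_ne_fun this continuous_const
  have hUD : μ (U ∩ D) = 0 := by
    have h8 : μ.restrict D U = 0 := by
      have : U = {x | ¬ ((fun x : G => ‖h (x : G ⧸ Γ)‖ ^ 2) x = (0 : G → ℝ) x)} := by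
        ext x
        simp [hU]
      rw [this]
      exact h7
    rwa [Measure.restrict_apply hUo.measurableSet] at h8
  have hUinv : ∀ γ : Γ, γ +ᵥ U = U := by
    intro γ
    ext x
    rw [Set.mem_vadd_set_iff_neg_vadd_mem]
    simp only [hU, Set.mem_ofPred_eq]
    rw [mk_vadd534]
  have hU0 : μ U = 0 := hD.measure_zero_of_invariant U hUinv hUD
  have hUe : U = ∅ := (hUo.measure_eq_zero_iff μ).1 hU0
  ext z
  induction z using QuotientAddGroup.induction_on with
  | H x =>
    by_contra hx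
    have : x ∈ U := hx
    rw [hUe] at this
    exact this


/-! ### Poisson summation -/

/-- The Fourier coefficient `c ξ = ∫ φ x * e (-ξ) x ∂μ`. -/
def coeff534 (μ : Measure G) (φ : G → ℂ) (ξ : Ξ) : ℂ := ∫ x, φ x * S.e (-ξ) x ∂μ

lemma norm_ebar_le534 [CompactSpace (G ⧸ Γ)] (ξ : Ξ) : ‖S.ebar534 ξ‖ ≤ 1 := by
  rw [ContinuousMap.norm_le _ zero_le_one]
  intro z
  induction z using QuotientAddGroup.induction_on with
  | H x => rw [ebar_mk534, S.norm_one]

omit [Countable Γ] [μ.IsAddLeftInvariant] in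
lemma integrableOn_e534 (hDfin : μ D ≠ ⊤) (ξ : Ξ) : IntegrableOn (S.e ξ) D μ :=
  IntegrableOn.of_bound hDfin.lt_top (S.cont ξ).aestronglyMeasurable 1
    (Eventually.of_forall fun x => (S.norm_one ξ x).le)

/-- The coefficients of the periodisation (unfolding). -/
theorem setIntegral_tsum_mul_e534 (hD : IsAddFundamentalDomain Γ D μ)
    {φ : G → ℂ} (hφi : Integrable φ μ) (ξ : Ξ) :
    ∫ x in D, (∑' γ : Γ, φ (x + γ)) * S.e ξ x ∂μ = ∫ x, φ x * S.e ξ x ∂μ := by
  have hint : Integrable (fun x => φ x * S.e ξ x) μ :=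
    hφi.mul_bdd (c := 1) (S.cont ξ).aestronglyMeasurable
      (Eventually.of_forall fun x => (S.norm_one ξ x).le)
  rw [integral_eq_setIntegral_tsum534 hD hint]
  congr 1
  funext x
  rw [← tsum_mul_right]
  congr 1
  funext γ
  rw [S.periodic_vadd534]
  congr 2
  change x + (γ : G) = (γ : G) + x
  abel

/-- **Abstract Poisson summation** (pointwise form). -/
theorem poisson_pointwise534 [LocallyCompactSpace G] [CompactSpace (G ⧸ Γ)]
    [μ.IsOpenPosMeasure] [Countable Ξ]
    (hD : IsAddFundamentalDomain Γ D μ) (hDfin : μ D ≠ ⊤)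
    (φ : C(G, ℂ)) (hφi : Integrable φ μ)
    (hφ : ∀ K : Compacts G,
      Summable fun γ : Γ => ‖(φ.comp (ContinuousMap.addRight (γ : G))).restrict K‖)
    (hc : Summable fun ξ => ‖S.coeff534 μ φ ξ‖) (x : G) :
    ((μ D).toReal : ℂ) * ∑' γ : Γ, φ (x + γ) = ∑' ξ, S.coeff534 μ φ ξ * S.e ξ x := by
  classical
  -- the periodisation
  have hsumΦ : Summable fun γ : Γ => φ.comp (ContinuousMap.addRight (γ : G)) :=
    ContinuousMap.summable_of_locally_summable_norm hφ
  set Φ : C(G, ℂ) := ∑' γ : Γ, φ.comp (ContinuousMap.addRight (γ : G)) with hΦ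
  have hΦapp : ∀ y, Φ y = ∑' γ : Γ, φ (y + γ) := fun y => by
    rw [hΦ, ← ContinuousMap.tsum_apply hsumΦ]
    rfl
  have hΦper : ∀ (γ : Γ) (y : G), Φ (γ +ᵥ y) = Φ y := by
    intro γ y
    rw [hΦapp, hΦapp, ← (Equiv.addLeft γ).tsum_eq (fun γ' : Γ => φ (y + γ'))]
    congr 1
    funext γ'
    congr 1
    change (γ : G) + y + (γ' : G) = y + ((γ + γ' : Γ) : G)
    push_cast
    abel
  have hΦrel : ∀ a b : G, QuotientAddGroup.leftRel Γ a b → Φ a = Φ b := by
    intro a b hab
    rw [QuotientAddGroup.leftRel_apply] at hab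
    have := hΦper ⟨-a + b, hab⟩ a
    rw [← this]
    congr 1
    change (-a + b) + a = b
    abel
  let Φbar : C(G ⧸ Γ, ℂ) := ⟨Quotient.lift Φ hΦrel, Φ.continuous.quotient_lift _⟩
  have hΦbar : ∀ y : G, Φbar (y : G ⧸ Γ) = Φ y := fun y => rfl
  -- the Fourier series
  have hsumΨ : Summable fun ξ => S.coeff534 μ φ ξ • S.ebar534 ξ := by
    refine Summable.of_norm_bounded hc (fun ξ => ?_)
    rw [norm_smul]
    calc ‖S.coeff534 μ φ ξ‖ * ‖S.ebar534 ξ‖ ≤ ‖S.coeff534 μ φ ξ‖ * 1 :=
          mul_le_mul_of_nonneg_left (S.norm_ebar_le534 ξ) (norm_nonneg _)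
      _ = ‖S.coeff534 μ φ ξ‖ := mul_one _
  set Ψbar : C(G ⧸ Γ, ℂ) := ∑' ξ, S.coeff534 μ φ ξ • S.ebar534 ξ with hΨ
  have hΨapp : ∀ y : G, Ψbar (y : G ⧸ Γ) = ∑' ξ, S.coeff534 μ φ ξ * S.e ξ y := fun y => by
    rw [hΨ, ← ContinuousMap.tsum_apply hsumΨ]
    rfl
  -- coefficients of `Φ`
  have hcoefΦ : ∀ ξ, ∫ y in D, Φbar (y : G ⧸ Γ) * S.e ξ y ∂μ = S.coeff534 μ φ (-ξ) := by
    intro ξ
    have := S.setIntegral_tsum_mul_e534 hD hφi ξ
    simp only [hΦbar, hΦapp, coeff534, neg_neg]
    exact this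
  -- coefficients of `Ψ`
  have hcoefΨ : ∀ ξ, ∫ y in D, Ψbar (y : G ⧸ Γ) * S.e ξ y ∂μ
      = S.coeff534 μ φ (-ξ) * ((μ D).toReal : ℂ) := by
    intro ξ
    have h1 : ∀ y : G, Ψbar (y : G ⧸ Γ) * S.e ξ y
        = ∑' η, S.coeff534 μ φ η * S.e (η + ξ) y := by
      intro y
      rw [hΨapp, ← tsum_mul_right]
      congr 1
      funext η
      rw [S.add_map, mul_assoc]
    simp only [h1]
    have hFint : ∀ η, Integrable (fun y => S.coeff534 μ φ η * S.e (η + ξ) y) (μ.restrict D) :=
      fun η => (S.integrableOn_e534 hDfin (η + ξ)).const_mul _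
    have hnorm : ∀ η, ∫ y in D, ‖S.coeff534 μ φ η * S.e (η + ξ) y‖ ∂μ
        = ‖S.coeff534 μ φ η‖ * (μ D).toReal := by
      intro η
      simp only [norm_mul, S.norm_one, mul_one]
      rw [setIntegral_const]
      simp [Measure.real, mul_comm]
    rw [← integral_tsum_of_summable_integral_norm hFint (by
      simp only [hnorm]
      exact hc.mul_right _)]
    have h2 : ∀ η, ∫ y in D, S.coeff534 μ φ η * S.e (η + ξ) y ∂μ
        = if η = -ξ then S.coeff534 μ φ (-ξ) * ((μ D).toReal : ℂ) else 0 := by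
      intro η
      rw [integral_const_mul]
      split_ifs with hη
      · subst hη
        rw [neg_add_cancel, S.setIntegral_e_zero534]
      · have : η + ξ ≠ 0 := fun h0 => hη (eq_neg_of_add_eq_zero_left h0)
        rw [S.setIntegral_e_eq_zero534 hD this, mul_zero]
    simp only [h2]
    rw [tsum_eq_single (-ξ) (fun η hη => by rw [if_neg hη])]
    rw [if_pos rfl]
  -- uniqueness
  have key : ((μ D).toReal : ℂ) • Φbar - Ψbar = 0 := by
    apply S.eq_zero_of_coeff534 hD hDfin
    intro ξ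
    have h3 : ∀ y : G, (((μ D).toReal : ℂ) • Φbar - Ψbar) (y : G ⧸ Γ) * S.e ξ y
        = ((μ D).toReal : ℂ) * (Φbar (y : G ⧸ Γ) * S.e ξ y) - Ψbar (y : G ⧸ Γ) * S.e ξ y := by
      intro y
      simp only [ContinuousMap.sub_apply, ContinuousMap.smul_apply, smul_eq_mul]
      ring
    simp only [h3]
    have i1 : IntegrableOn (fun y : G => Φbar (y : G ⧸ Γ) * S.e ξ y) D μ :=
      integrableOn_pull534 hDfin (Φbar * S.ebar534 ξ)
    have i2 : IntegrableOn (fun y : G => Ψbar (y : G ⧸ Γ) * S.e ξ y) D μ :=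
      integrableOn_pull534 hDfin (Ψbar * S.ebar534 ξ)
    rw [integral_sub (i1.const_mul _) i2, integral_const_mul, hcoefΦ, hcoefΨ]
    ring
  have hx := congrArg (fun f : C(G ⧸ Γ, ℂ) => f (x : G ⧸ Γ)) key
  simp only [ContinuousMap.sub_apply, ContinuousMap.smul_apply, smul_eq_mul,
    ContinuousMap.zero_apply] at hx
  rw [hΦbar, hΦapp, hΨapp] at hx
  exact sub_eq_zero.1 hx

end CharSys534

end Fermat.Agent.LT.T3.H534

end
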